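import Fermat.Agent.TOR.T1.Defs
import Fermat.Agent.GAL.KLC.XF
import Fermat.Agent.GR.HeckeField.Main
import Fermat.Agent.S18.Level.Infty
import Fermat.Agent.S28.DG.Abstract.Indep

/-!
# TOR / T1C : the data at the cusps (`T1.Cusp`) at `F₀ = FN M`, `F = FN (M * q)`.
-/

set_option autoImplicit false

open ModularCurve AlgebraicCurve Polynomial

noncomputable section

namespace Fermat.Agent.TOR.T1C

open Fermat.Agent.GR Fermat.Agent.GAL Fermat.Agent.GAL.KL Fermat.Agent.GAL.KLC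
open Fermat.Agent.GR.HeckeField Fermat.Agent.S24

theorem cusp_order_JJ (M : ℕ) [NeZero M] : ((JJ M : FN M) : LaurentSeries Kb).order = -1 := by
  have h : ((JJ M : FN M) : LaurentSeries Kb) = jqModC Kb := by
    change coeffMap (algebraMap ℚ Kb) (qExpand ℚ 1 jq) = _
    rw [qExpand_one_apply]
    exact map_jqModC (K := ℚ) (algebraMap ℚ Kb)
  rw [h]
  exact Fermat.Agent.S28.order_jqModC Kb

/-- the place `Q = 0`. -/
theorem exists_place_Q (M : ℕ) [NeZero M] :
    ∃ P : Place Kb (FN M), ∀ x : FN M, P.ord x = (x : LaurentSeries Kb).order :=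
  Fermat.Agent.S18.exists_place_infty (modularFunctionFieldBar M) (JJ M) (cusp_order_JJ M)

theorem finrankAlong_alp (M q : ℕ) [NeZero M] [NeZero q] (hq : q.Prime) (hqM : ¬ q ∣ M) :
    finrankAlong Kb (alp M q) = q + 1 :=
  finrank_FN_mul M q hq hqM

/-- **the concrete data at the cusps.** -/
theorem cusp (M q : ℕ) [NeZero M] [NeZero q] (hq : q.Prime) (hqM : ¬ q ∣ M)
    (P₀ : Place Kb (FN M)) (hP₀ : ∀ x : FN M, P₀.ord x = (x : LaurentSeries Kb).order)
    (P₁ : Place Kb (FN (M * q)))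
    (hP₁ : ∀ x : FN (M * q), P₁.ord x = (x : LaurentSeries Kb).order) :
    T1.Cusp (alp M q) (bet M q) (xF M) (mX M) q P₀ P₁ where
  deg := finrankAlong_alp M q hq hqM
  ordα := by
    intro c
    rw [hP₁, hP₀, coe_heckeAlphaBar]
  ordβ := by
    intro c
    rw [hP₁, hP₀, coe_heckeBetaBar, Fermat.Agent.S28.DG.Indep.order_qExpand]
  ordx := by
    rw [hP₀]
    exact order_xR M Qb

theorem exists_cusp (M q : ℕ) [NeZero M] [NeZero q] (hq : q.Prime) (hqM : ¬ q ∣ M) :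
    ∃ (P₀ : Place Qb (FL Qb M)) (P₁ : Place Qb (FL Qb (M * q))),
      T1.Cusp (alp M q) (bet M q) (xF M) (mX M) q P₀ P₁ := by
  obtain ⟨P₀, hP₀⟩ := exists_place_Q M
  obtain ⟨P₁, hP₁⟩ := exists_place_Q (M * q)
  exact ⟨P₀, P₁, cusp M q hq hqM P₀ hP₀ P₁ hP₁⟩

end Fermat.Agent.TOR.T1C
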