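import Fermat.Agent.TOR.T1.Defs
import Fermat.Agent.TOR.GB.W
import Fermat.Agent.GAL.KLC.ValThm

/-!
# TOR / T1C : the two-level datum `T1.Lvl` for `F₀ = FN M₁`, `F = FN (M₁ q)`.
-/

set_option autoImplicit false

open ModularCurve AlgebraicCurve Polynomial

noncomputable section

namespace Fermat.Agent.TOR.T1C

open Fermat.Agent.GR Fermat.Agent.GAL Fermat.Agent.GAL.KL Fermat.Agent.GAL.KLC Fermat.Agent.S24
open Fermat.Agent.GR.HeckeField Fermat.Agent.TOR.GB

variable (M : ℕ) (A : ValuationSubring Qb)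

/-- dictionary `T1.Rd (rho A M)` ↔ `GR.HasRed A`. -/
theorem rd_iff {z : FL Qb M} {φ : LaurentSeries (kA A)} :
    T1.Rd (rho A M) z φ ↔ HasRed A (z : LaurentSeries Qb) φ := by
  constructor
  · rintro ⟨h, rfl⟩
    exact hasRed_rho A M ⟨z, h⟩
  · intro h
    exact ⟨(mem_integer_iff A M).2 ⟨φ, h⟩, rho_eq_of_hasRed A M h⟩

/-- reduction commutes with `Q ↦ Q^q`. -/
theorem hasRed_qExpand (q : ℕ) [NeZero q] {x : LaurentSeries Qb} {φ : LaurentSeries (kA A)}
    (h : HasRed A x φ) : HasRed A (qExpand Qb q x) (qExpand (kA A) q φ) :=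
  h.map (qExpand A q) (qExpand Qb q) (qExpand (kA A) q) (map_mul _) (map_mul _)
    (fun y => GR.coeffMap_qExpand _ q y) (fun y => GR.coeffMap_qExpand _ q y)
    (fun _ hw => (_root_.map_ne_zero _).2 hw)

variable (M₁ q : ℕ) [NeZero M₁] [NeZero q]

theorem lvl (hq : q.Prime) (hqM : ¬ q ∣ M₁) :
    T1.Lvl Qb (rho A M₁) (rho A (M₁ * q)) (alp M₁ q) (bet M₁ q) (wq M₁ q) q where
  red₀ := isRed A M₁
  red := isRed A (M₁ * q)
  wα := wq_alp hq hqM
  wβ := wq_bet hq hqM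
  ww := wq_wq hq hqM
  ρα := fun c φ h => by
    rw [rd_iff] at h ⊢
    rw [coe_heckeAlphaBar]
    exact h
  ρβ := fun c φ h => by
    rw [rd_iff] at h ⊢
    rw [coe_heckeBetaBar]
    exact hasRed_qExpand A q h

end Fermat.Agent.TOR.T1C
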