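import Fermat.Agent.TOR.T1.Lift
import Fermat.Agent.GAL.KLC.MainOf

/-!
# TOR / T1C : the datum `T1.XDat` for the KLC functions `x`, `x'` of level `M₁`
(from the three contracts `SpansStatement`, `RIStatement`, `CTStatement` of `GAL/KLC/MainOf.lean`).
-/

set_option autoImplicit false

open ModularCurve AlgebraicCurve Polynomial

noncomputable section

namespace Fermat.Agent.TOR.T1C

open Fermat.Agent.GR Fermat.Agent.GAL Fermat.Agent.GAL.KL Fermat.Agent.GAL.KLC

theorem coeffMap_int_ne_zero {R : Type*} [CommRing R] [IsDomain R] (y : LaurentSeries ℤ) (e : ℤ)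
    (h : ∃ u : PowerSeries ℤ, PowerSeries.constantCoeff u = 1 ∧
      y = HahnSeries.single e 1 * HahnSeries.ofPowerSeries ℤ ℤ u) :
    coeffMap (Int.castRingHom R) y ≠ 0 := by
  obtain ⟨u, hu, rfl⟩ := h
  rw [map_mul, coeffMap_single, ModularCurve.coeffMap_ofPowerSeries, map_one]
  refine mul_ne_zero (HahnSeries.single_ne_zero one_ne_zero) ?_
  intro h0
  have h1 : u.map (Int.castRingHom R) = 0 :=
    HahnSeries.ofPowerSeries_injective (by rw [h0, map_zero])
  have h2 := congrArg PowerSeries.constantCoeff h1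
  rw [← PowerSeries.coeff_zero_eq_constantCoeff_apply, PowerSeries.coeff_map,
    PowerSeries.coeff_zero_eq_constantCoeff_apply, hu, map_one, map_zero] at h2
  exact one_ne_zero h2

/-- series with coefficients in the prime field: `V f = f ^ q`. -/
theorem qExpand_coeffMap_int {k : Type*} [Field k] (q : ℕ) [NeZero q] [ExpChar k q]
    (y : LaurentSeries ℤ) :
    qExpand k q (coeffMap (Int.castRingHom k) y) = coeffMap (Int.castRingHom k) y ^ q := by
  rw [pow_char_eq_qExpand q, coeffMap_coeffMap]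
  have h : (frobenius k q).comp (Int.castRingHom k) = Int.castRingHom k := RingHom.ext_int _ _
  rw [h]

variable (M₁ q : ℕ) [NeZero M₁] [NeZero q]

theorem xDat (hq : q.Prime) (A : ValuationSubring Qb) (hA : A.LiesOverPrime q)
    (hSp : SpansStatement M₁) (hRI : RIStatement M₁) (hCT : CTStatement M₁ A) :
    T1.XDat Qb (rho A M₁) (xF M₁) (xF' M₁) (xR (kA A) M₁) (xR' (kA A) M₁) (mX M₁) q := by
  have hchar : CharP (kA A) q := charP_residueField hq hA
  have : ExpChar (kA A) q := ExpChar.prime hq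
  obtain ⟨fZ, hfc, hf0, hfi⟩ := exists_cusp_basis M₁ q hq (kA A)
  have hl := T1.lift_of_count (isRed A M₁) (xF_mem_integer M₁ A) (xF'_mem_integer M₁ A) (mX_pos M₁)
    (order_rho_xF M₁ A) (order_rho_xF' M₁ A) hSp hRI
    (fun j => psR (kA A) (fZ j)) hfi (fun j => order_psR_pos _ (hf0 j) (hfi.ne_zero j))
    (fun z hz j => hCT _ (z : FL Qb M₁).2 _ (hasRed_rho A M₁ z)
      (by rw [rho_xF] at hz; exact hz) _ (hfc j))
  rw [rho_xF] at hl
  exact
    { m_pos := mX_pos M₁
      rx := ⟨xF_mem_integer M₁ A, rho_xF M₁ A⟩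
      rx' := ⟨xF'_mem_integer M₁ A, rho_xF' M₁ A⟩
      ox := order_xR M₁ _
      ox' := order_xR' M₁ _
      ne' := coeffMap_int_ne_zero _ _ (XZ'_eq M₁)
      Vx := qExpand_coeffMap_int q _
      spans := hSp
      lift := hl.1
      lift' := hl.2 }

end Fermat.Agent.TOR.T1C
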