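import Fermat.Agent.TOR.T1C.Lvl
import Fermat.Agent.TOR.GB.W
import Fermat.Agent.GAL.KLC.XF

/-!
# TOR / T1C : the Galois action as `T1.Semi` (Frobenius lifts and inertia).
-/

set_option autoImplicit false

open ModularCurve AlgebraicCurve Polynomial

noncomputable section

namespace Fermat.Agent.TOR.T1C

open Fermat.Agent.GR Fermat.Agent.GAL Fermat.Agent.GAL.KL Fermat.Agent.GAL.KLC Fermat.Agent.S24
open Fermat.Agent.GR.HeckeField Fermat.Agent.TOR.GB

variable (A : ValuationSubring Qb)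

theorem galF_algebraMap (N : ℕ) (σ : GQ) (a : Qb) :
    galF N σ (algebraMap Qb (FL Qb N) a) = algebraMap Qb (FL Qb N) (σ a) := by
  apply Subtype.ext
  rw [coe_galF]
  show galS σ (algebraMap Qb (LaurentSeries Qb) a) = algebraMap Qb (LaurentSeries Qb) (σ a)
  rw [algebraMap_laurentSeries_eq_single, algebraMap_laurentSeries_eq_single]
  exact coeffMap_single _ _ _

/-- series with integer coefficients are Galois invariant. -/
theorem galS_coeffMap_int (σ : GQ) (y : LaurentSeries ℤ) :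
    galS σ (coeffMap (Int.castRingHom Qb) y) = coeffMap (Int.castRingHom Qb) y := by
  rw [galS, coeffMap_coeffMap]
  have h : ((σ : Qb →+* Qb)).comp (Int.castRingHom Qb) = Int.castRingHom Qb := RingHom.ext_int _ _
  rw [h]

theorem galF_xF (M : ℕ) [NeZero M] (σ : GQ) : galF M σ (xF M) = xF M :=
  Subtype.ext (galS_coeffMap_int σ _)

variable {A}

theorem hasRed_galS_inertia {τ : GQ} (hτ : τ ∈ A.inertiaSubgroupIn ℚ) {x : LaurentSeries Qb}
    {z : LaurentSeries (kA A)} (h : HasRed A x z) : HasRed A (galS τ x) z := by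
  obtain ⟨hd, hred⟩ := red_decompHom_of_inertia hτ
  exact h.map (coeffMap (decompHom τ hd)) (coeffMap (τ : Qb →+* Qb)) id (map_mul _) (fun _ _ => rfl)
      (incl_decompHom τ hd) hred (fun _ hw => hw)

variable (M₁ q : ℕ) [NeZero M₁] [NeZero q]

theorem semi_frob [ExpChar (kA A) q] {σ : GQ} (hσ : A.IsFrobeniusAt σ q) :
    T1.Semi (rho A M₁) (rho A (M₁ * q)) (alp M₁ q) (bet M₁ q) σ.toRingEquiv (galF M₁ σ)
      (galF (M₁ * q) σ) (coeffMap (frobenius (kA A) q)) where
  sK₀ := galF_algebraMap M₁ σ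
  sK := galF_algebraMap (M₁ * q) σ
  sα := galF_alp σ
  sβ := galF_bet σ
  ρs₀ := fun c φ h => by
    rw [rd_iff] at h ⊢
    exact h.map_frobenius hσ
  ρs := fun c φ h => by
    rw [rd_iff] at h ⊢
    exact h.map_frobenius hσ

theorem semi_inertia {τ : GQ} (hτ : τ ∈ A.inertiaSubgroupIn ℚ) :
    T1.Semi (rho A M₁) (rho A (M₁ * q)) (alp M₁ q) (bet M₁ q) τ.toRingEquiv (galF M₁ τ)
      (galF (M₁ * q) τ) (RingHom.id _) where
  sK₀ := galF_algebraMap M₁ τ
  sK := galF_algebraMap (M₁ * q) τ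
  sα := galF_alp τ
  sβ := galF_bet τ
  ρs₀ := fun c φ h => by
    rw [rd_iff] at h ⊢
    exact hasRed_galS_inertia hτ h
  ρs := fun c φ h => by
    rw [rd_iff] at h ⊢
    exact hasRed_galS_inertia hτ h

end Fermat.Agent.TOR.T1C
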