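import Fermat.Agent.TOR.T1.Main
import Fermat.Agent.TOR.T1C.XDat
import Fermat.Agent.TOR.T1C.Lvl
import Fermat.Agent.TOR.T1C.Semi
import Fermat.Agent.TOR.T1C.Cusp
import Fermat.Agent.TOR.GB.Contract
import Fermat.Agent.Lib.FrobeniusExists

/-!
# TOR / T1C : the concrete toric key lemma `GB.KL2C` and the idempotent `GB.ThetaC`
from the three KLC contracts at level `M₁`.
-/

set_option autoImplicit false

open ModularCurve AlgebraicCurve Polynomial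

noncomputable section

namespace Fermat.Agent.TOR.T1C

open Fermat.Agent.GR Fermat.Agent.GAL Fermat.Agent.GAL.KL Fermat.Agent.GAL.KLC Fermat.Agent.S24
open Fermat.Agent.GR.HeckeField Fermat.Agent.TOR.GB

variable (M₁ q : ℕ) [NeZero M₁] [NeZero q]

theorem thetaC (hq : q.Prime) (hqM : ¬ q ∣ M₁)
    (hSp : SpansStatement M₁) (hRI : RIStatement M₁)
    (hCT : ∀ A : ValuationSubring Qb, A.LiesOverPrime q → CTStatement M₁ A) : ThetaC M₁ q := by
  intro A hA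
  have H := lvl A M₁ q hq hqM
  have X := xDat M₁ q hq A hA hSp hRI (hCT A hA)
  refine ⟨T1.th (alp M₁ q) (bet M₁ q) q (xF M₁), ?_, ?_⟩
  · exact (rd_iff (M₁ * q) A).1 (T1.rd_th H X hq.two_le)
  · exact (rd_iff (M₁ * q) A).1 (T1.rd_w_th H X hq.two_le)

theorem kl2c (hq : q.Prime) (hqM : ¬ q ∣ M₁)
    (hSp : SpansStatement M₁) (hRI : RIStatement M₁)
    (hCT : ∀ A : ValuationSubring Qb, A.LiesOverPrime q → CTStatement M₁ A) : KL2C M₁ q := by
  intro n hn0 hqn A hA φ Qe hφ W hW1 hW2 hdiv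
  have hn : 0 < n := Nat.pos_of_ne_zero hn0
  have hchar : CharP (kA A) q := charP_residueField hq hA
  have : ExpChar (kA A) q := ExpChar.prime hq
  have H := lvl A M₁ q hq hqM
  have X := xDat M₁ q hq A hA hSp hRI (hCT A hA)
  obtain ⟨P₀, hP₀⟩ := exists_place_Q M₁
  obtain ⟨P₁, hP₁⟩ := exists_place_Q (M₁ * q)
  have C := cusp M₁ q hq hqM P₀ hP₀ P₁ hP₁
  have hArch := arch A (M₁ * q) hq hA
  have hvn := vG_natCast A (M₁ * q) hq hA hqn
  have h1 : vG A (M₁ * q) (W - 1) < 1 := vG_sub_one_lt A (M₁ * q) hW1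
  have h2 : vG A (M₁ * q) (wq M₁ q W - 1) < 1 := vG_sub_one_lt A (M₁ * q) hW2
  have hwg : ∀ (σ : GQ) (z : FN (M₁ * q)),
      galF (M₁ * q) σ (wq M₁ q z) = wq M₁ q (galF (M₁ * q) σ z) :=
    fun σ z => (wq_galF hq hqM σ z).symm
  rcases hφ with ⟨hτ, rfl⟩ | ⟨σ, hσ, rfl, rfl⟩
  · obtain ⟨σ, hσ⟩ := Fermat.Agent.Lib.FrobeniusExists.exists_isFrobeniusAt_rat A hq hA
    obtain ⟨y, hy⟩ := T1.thmA H X hq.two_le hArch C (semi_frob M₁ q hσ) (hwg σ) (galF_xF M₁ σ) hn hvn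
      (semi_inertia M₁ q hτ) (hwg φ) (galF_xF M₁ φ) h1 h2 hdiv
    exact ⟨y, by rw [pow_one]; exact hy⟩
  · obtain ⟨y, hy⟩ := T1.thmB H X hq.two_le hArch C (semi_frob M₁ q hσ) (hwg σ) (galF_xF M₁ σ) hn hvn
      h1 h2 hdiv
    refine ⟨y, ?_⟩
    rw [hy]
    congr 1

end Fermat.Agent.TOR.T1C
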